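/-
helper34: KL-N-T (P-ES), core algebra: an element `c` of a field extension of the fraction field
of an integrally closed domain `R` such that `a • c` and `b • c` are integral over `R`, with `a`
prime and `a ∤ b`, is integral over `R`.  Mathlib only.
-/
import Mathlib

set_option autoImplicit false

noncomputable section

open Polynomial

namespace Fermat.Agent.H34

section core

variable {R E : Type*} [CommRing R] [IsDomain R] [Field E] [Algebra R E]

/-- In a domain, if `z * a ^ k` and `z * b ^ k` lie in `R` for `a` prime and `a ∤ b`, then the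
element `z` of the fraction field lies in `R`. -/
theorem klT_mem_range_of_mul_pow {L : Type*} [Field L] [Algebra R L] [IsFractionRing R L]
    {a b : R} (ha : Prime a) (hab : ¬ a ∣ b) (k : ℕ) {z : L} {r s : R}
    (hr : algebraMap R L r = z * algebraMap R L a ^ k)
    (hs : algebraMap R L s = z * algebraMap R L b ^ k) :
    z ∈ (algebraMap R L).range := by
  have hinj : Function.Injective (algebraMap R L) := IsFractionRing.injective R L
  have h1 : r * b ^ k = s * a ^ k := by
    apply hinj
    rw [map_mul, map_mul, map_pow, map_pow, hr, hs]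
    ring
  have h2 : a ^ k ∣ r * b ^ k := ⟨s, by rw [h1]; ring⟩
  have hab' : ¬ a ∣ b ^ k := fun h => hab (ha.dvd_of_dvd_pow h)
  have h3 : a ^ k ∣ r := ha.pow_dvd_of_dvd_mul_right k hab' h2
  obtain ⟨r', hr'⟩ := h3
  refine ⟨r', ?_⟩
  have ha0 : algebraMap R L a ^ k ≠ 0 := by
    apply pow_ne_zero
    intro h
    exact ha.ne_zero (hinj (by rw [h, map_zero]))
  apply mul_right_cancel₀ ha0
  rw [← hr, hr', map_mul, map_pow]
  ring

variable [IsIntegrallyClosed R] [FaithfulSMul R E]

/-- **Core of Lemma T**: if `a • c` and `b • c` are integral over the integrally closed domain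
`R`, with `a` prime and `a ∤ b`, then `c` is integral over `R`. -/
theorem klT_isIntegral_of_smul {a b : R} (ha : Prime a) (hab : ¬ a ∣ b) {c : E}
    (hac : IsIntegral R (a • c)) (hbc : IsIntegral R (b • c)) : IsIntegral R c := by
  let L := FractionRing R
  let _ : Algebra L E := FractionRing.liftAlgebra R E
  have : IsScalarTower R L E := FractionRing.isScalarTower_liftAlgebra R E
  have hinj : Function.Injective (algebraMap R L) := IsFractionRing.injective R L
  have ha0 : a ≠ 0 := ha.ne_zero
  have hb0 : b ≠ 0 := fun h => hab (h ▸ dvd_zero a)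
  have ha'0 : algebraMap R L a ≠ 0 := fun h => ha0 (hinj (by rw [h, map_zero]))
  have hb'0 : algebraMap R L b ≠ 0 := fun h => hb0 (hinj (by rw [h, map_zero]))
  have hsa : algebraMap R L a • c = a • c := algebraMap_smul L a c
  have hsb : algebraMap R L b • c = b • c := algebraMap_smul L b c
  have hcL : IsIntegral L c := by
    have h1 : IsIntegral L (a • c) := hac.tower_top
    have h2 : c = (algebraMap R L a)⁻¹ • (a • c) := by
      rw [← hsa, smul_smul, inv_mul_cancel₀ ha'0, one_smul]
    rw [h2]
    exact h1.smul _
  set f := minpoly L c with hf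
  have hfa : f.scaleRoots (algebraMap R L a) ∈ Polynomial.lifts (algebraMap R L) := by
    have h1 : minpoly L (algebraMap R L a • c) = f.scaleRoots (algebraMap R L a) :=
      IsIntegrallyClosed.minpoly_smul ha'0 hcL
    have h2 : minpoly L (a • c) = (minpoly R (a • c)).map (algebraMap R L) :=
      minpoly.isIntegrallyClosed_eq_field_fractions' L hac
    rw [← h1, hsa, h2]
    exact (Polynomial.mem_lifts _).mpr ⟨_, rfl⟩
  have hfb : f.scaleRoots (algebraMap R L b) ∈ Polynomial.lifts (algebraMap R L) := by
    have h1 : minpoly L (algebraMap R L b • c) = f.scaleRoots (algebraMap R L b) :=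
      IsIntegrallyClosed.minpoly_smul hb'0 hcL
    have h2 : minpoly L (b • c) = (minpoly R (b • c)).map (algebraMap R L) :=
      minpoly.isIntegrallyClosed_eq_field_fractions' L hbc
    rw [← h1, hsb, h2]
    exact (Polynomial.mem_lifts _).mpr ⟨_, rfl⟩
  have hflift : f ∈ Polynomial.lifts (algebraMap R L) := by
    rw [Polynomial.lifts_iff_coeff_lifts]
    intro i
    obtain ⟨r, hr⟩ := (Polynomial.lifts_iff_coeff_lifts _).mp hfa i
    obtain ⟨s, hs⟩ := (Polynomial.lifts_iff_coeff_lifts _).mp hfb i
    rw [Polynomial.coeff_scaleRoots] at hr hs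
    exact klT_mem_range_of_mul_pow ha hab (f.natDegree - i) hr hs
  obtain ⟨g, hg, -, hgmonic⟩ :=
    Polynomial.lifts_and_natDegree_eq_and_monic hflift (minpoly.monic hcL)
  refine ⟨g, hgmonic, ?_⟩
  have h := minpoly.aeval L c
  rw [← hf, ← hg, Polynomial.aeval_map_algebraMap] at h
  exact h

end core

end Fermat.Agent.H34
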