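/-
helper34: KL-N-T (P-ES), **Lemma T**: `B(x) ∩ ϖ C(x) = ϖ B(x)`, in the form of the interface
`Fermat.Agent.H22.KL.LemmaTStatement`.
-/
import Fermat.Agent.H22.ES.KLSetting
import Fermat.Agent.H34.KL.LemmaTCore

set_option autoImplicit false

noncomputable section

open Polynomial

namespace Fermat.Agent.H34

open Fermat.Agent.H22.KL Fermat.Agent.H67.KLConn

/-- **Lemma T**: `B(x) ∩ ϖ C(x) = ϖ B(x)`. -/
theorem lemmaT : Fermat.Agent.H22.KL.LemmaTStatement := by
  intro A _ _ _ E _ _ hinj ϖ hϖ x hx y hy hdvd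
  obtain ⟨c, hc, hyc⟩ := hdvd
  obtain ⟨h, hh, hnd, hhc⟩ := hc
  let R : Subalgebra A E := Algebra.adjoin A {x}
  let e : A[X] ≃ₐ[A] R := Polynomial.algEquivOfTranscendental A x hx
  have hicX : IsIntegrallyClosed A[X] := inferInstance
  have hicR : IsIntegrallyClosed R := IsIntegrallyClosed.of_equiv e.toRingEquiv
  have hϖprime : Prime (algebraMap A R ϖ) := by
    have h1 : Prime (C ϖ : A[X]) := Polynomial.prime_C_iff.mpr hϖ.prime
    have h2 : e (C ϖ) = algebraMap A R ϖ := by
      rw [← Polynomial.algebraMap_eq]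
      exact e.commutes ϖ
    rw [← h2]
    exact (MulEquiv.prime_iff e.toMulEquiv).mpr h1
  have hnd' : ¬ (algebraMap A R ϖ) ∣ (⟨h, hh⟩ : R) := by
    rintro ⟨r, hr⟩
    apply hnd
    refine ⟨r, r.2, ?_⟩
    have h1 : h = algebraMap A E ϖ * (r : E) := congrArg Subtype.val hr
    rw [pow_one, Algebra.smul_def]
    exact h1
  have hyint : IsIntegral R (algebraMap A R ϖ • c) := by
    have h1 : algebraMap A R ϖ • c = y := by
      rw [hyc]
      rfl
    rw [h1]
    exact hy
  have hhint : IsIntegral R ((⟨h, hh⟩ : R) • c) := hhc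
  have hcint : IsIntegral R c := klT_isIntegral_of_smul hϖprime hnd' hyint hhint
  refine ⟨c, hcint, ?_⟩
  rw [hyc, pow_one, Algebra.smul_def]

end Fermat.Agent.H34

end
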